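/-
S41 / [PD-UNIMOD] (helper87): **Poincaré duality for the modular curve of a finite-index subgroup of
`PSL₂(ℤ)`, as pure finite linear algebra** — valid in every characteristic `≠ 2`, in particular
`p = 3` with elliptic points of order `3` (fixed darts of `t`).

`P` a finite set (`= Γ \ PSL₂(ℤ)`), `s t : Equiv.Perm P` with `s² = 1`, `t³ = 1` (right multiplication
by the two generators; NO freeness assumption).  `V = P → R`, `(S v)(x) = v (s x)`, `(T v)(x) = v (t x)`.

* `Zs s t`  : the SURFACE cocycles `{f | S f = -f ∧ f ∈ range (1 - T)}`;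
* `Bd s t`  : the coboundaries `{g - S g | S g = T g}` (`g` = a function on the cusps);
* `omegaM t m m' = ⟨m, T⁻¹ m' - T m'⟩` : the cup-product form in terms of primitives
  (`f = m - T m`, `f' = m' - T m'`); `omegaM_eq : omegaM t m m' = ⟨m - T m, T⁻¹ m'⟩`.

Main theorem `mem_Bd_of_forall_omega_eq_zero` (over a field of characteristic `≠ 2`): the radical of
the form on `Zs` is exactly `Bd`, i.e. the form is non-degenerate on `Zs / Bd = H¹(X_Γ, k)`.
-/
import Mathlib

set_option autoImplicit false

namespace Fermat.Agent.S41.PDAlg87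

open Matrix

variable {P : Type*} [Fintype P] [DecidableEq P]

section Ring

variable {R : Type*} [CommRing R]

/-- precomposition with a permutation: `(pre σ v) x = v (σ x)`. -/
def pre (σ : Equiv.Perm P) : (P → R) →ₗ[R] (P → R) := LinearMap.funLeft R R σ

@[simp] theorem pre_apply (σ : Equiv.Perm P) (v : P → R) (x : P) : pre σ v x = v (σ x) := rfl

theorem dot_pre_pre (σ : Equiv.Perm P) (v w : P → R) : pre σ v ⬝ᵥ pre σ w = v ⬝ᵥ w :=
  Equiv.sum_comp σ (fun x => v x * w x)

theorem dot_pre_left (σ : Equiv.Perm P) (v w : P → R) : pre σ v ⬝ᵥ w = v ⬝ᵥ pre σ.symm w := by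
  rw [← dot_pre_pre σ v (pre σ.symm w)]
  congr 1
  ext x
  simp

theorem dot_pre_right (σ : Equiv.Perm P) (v w : P → R) : v ⬝ᵥ pre σ w = pre σ.symm v ⬝ᵥ w := by
  rw [dot_pre_left, Equiv.symm_symm]

/-- if `w ⬝ᵥ v = 0` for all `w` then `v = 0`. -/
theorem eq_zero_of_forall_dot (v : P → R) (h : ∀ w : P → R, w ⬝ᵥ v = 0) : v = 0 := by
  ext x
  have := h (Pi.single x 1)
  simpa using this

variable (s t : Equiv.Perm P)

/-- the surface cocycles -/
def Zs : Submodule R (P → R) :=
  LinearMap.ker (pre s + LinearMap.id) ⊓ LinearMap.range (LinearMap.id - pre t)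

/-- the coboundaries: `g - S g`, `g` a function on the cusps (`S g = T g`) -/
def Bd : Submodule R (P → R) :=
  Submodule.map (LinearMap.id - pre s) (LinearMap.ker (pre s - pre t))

variable {s t}

theorem mem_Zs {f : P → R} :
    f ∈ Zs (R := R) s t ↔ (∀ x, f (s x) = - f x) ∧ ∃ m : P → R, ∀ x, f x = m x - m (t x) := by
  unfold Zs
  rw [Submodule.mem_inf, LinearMap.mem_ker, LinearMap.mem_range]
  constructor
  · rintro ⟨h1, m, hm⟩
    refine ⟨fun x => ?_, m, fun x => ?_⟩
    · have := congrFun h1 x
      simp only [LinearMap.add_apply, LinearMap.id_apply, Pi.add_apply, pre_apply,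
        Pi.zero_apply] at this
      exact eq_neg_of_add_eq_zero_left this
    · have := congrFun hm x
      simp only [LinearMap.sub_apply, LinearMap.id_apply, Pi.sub_apply, pre_apply] at this
      exact this.symm
  · rintro ⟨h1, m, hm⟩
    refine ⟨?_, m, ?_⟩
    · ext x
      simp only [LinearMap.add_apply, LinearMap.id_apply, Pi.add_apply, pre_apply, Pi.zero_apply]
      rw [h1 x]; ring
    · ext x
      simp only [LinearMap.sub_apply, LinearMap.id_apply, Pi.sub_apply, pre_apply]
      exact (hm x).symm

theorem mem_Bd {f : P → R} :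
    f ∈ Bd (R := R) s t ↔ ∃ g : P → R, (∀ x, g (s x) = g (t x)) ∧ ∀ x, f x = g x - g (s x) := by
  unfold Bd
  rw [Submodule.mem_map]
  constructor
  · rintro ⟨g, hg, rfl⟩
    refine ⟨g, fun x => ?_, fun x => rfl⟩
    have := congrFun (LinearMap.mem_ker.1 hg) x
    simp only [LinearMap.sub_apply, Pi.sub_apply, pre_apply, Pi.zero_apply] at this
    exact sub_eq_zero.1 this
  · rintro ⟨g, hg, hf⟩
    refine ⟨g, ?_, ?_⟩
    · rw [LinearMap.mem_ker]
      ext x
      simp only [LinearMap.sub_apply, Pi.sub_apply, pre_apply, Pi.zero_apply]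
      exact sub_eq_zero.2 (hg x)
    · ext x
      simp only [LinearMap.sub_apply, LinearMap.id_apply, Pi.sub_apply, pre_apply]
      exact (hf x).symm

/-- the cup-product form in terms of primitives -/
def omegaM (t : Equiv.Perm P) (m m' : P → R) : R := m ⬝ᵥ (pre t.symm m' - pre t m')

theorem omegaM_antisymm (m m' : P → R) : omegaM t m m' = - omegaM t m' m := by
  unfold omegaM
  rw [dotProduct_sub, dotProduct_sub, dot_pre_right, dot_pre_right, Equiv.symm_symm,
    dotProduct_comm (pre t m) m', dotProduct_comm (pre t.symm m) m']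
  ring

theorem omegaM_self (m : P → R) : omegaM t m m = 0 := by
  unfold omegaM
  rw [dotProduct_sub, dot_pre_right, Equiv.symm_symm, dotProduct_comm (pre t m) m]
  ring

end Ring

section Ring2

variable {R : Type*} [CommRing R] {s t : Equiv.Perm P}

theorem symm_eq_of_sq (hs : ∀ x, s (s x) = x) : s.symm = s := by
  ext x
  rw [Equiv.symm_apply_eq, hs]

theorem symm_apply_of_cube (ht : ∀ x, t (t (t x)) = x) (x : P) : t.symm x = t (t x) := by
  rw [Equiv.symm_apply_eq, ht]

/-- `omegaM t m m' = ⟨m - T m, T⁻¹ m'⟩`. -/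
theorem omegaM_eq (ht : ∀ x, t (t (t x)) = x) (m m' : P → R) :
    omegaM t m m' = (m - pre t m) ⬝ᵥ pre t.symm m' := by
  unfold omegaM
  rw [dotProduct_sub, sub_dotProduct, dot_pre_left t m]
  congr 2
  ext x
  simp only [pre_apply]
  rw [symm_apply_of_cube ht, symm_apply_of_cube ht, ht]

/-- the form only depends on the cocycle `m' - T m'`. -/
theorem omegaM_of_invariant_right (m b : P → R) (hb : ∀ x, b (t x) = b x) :
    omegaM t m b = 0 := by
  unfold omegaM
  have h1 : pre t b = b := by ext x; exact hb x
  have h2 : pre t.symm b = b := by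
    ext x
    simp only [pre_apply]
    have := hb (t.symm x)
    rw [Equiv.apply_symm_apply] at this
    exact this.symm
  rw [h1, h2, sub_self, dotProduct_zero]

theorem omegaM_of_invariant_left (m b : P → R) (hb : ∀ x, b (t x) = b x) :
    omegaM t b m = 0 := by
  rw [omegaM_antisymm, omegaM_of_invariant_right m b hb, neg_zero]

theorem Bd_le_Zs (hs : ∀ x, s (s x) = x) : Bd (R := R) s t ≤ Zs s t := by
  intro f hf
  obtain ⟨g, hg, hfg⟩ := mem_Bd.1 hf
  refine mem_Zs.2 ⟨fun x => ?_, g, fun x => ?_⟩
  · rw [hfg, hfg, hs]; ring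
  · rw [hfg, hg]

/-- **the coboundaries are in the radical**: for `f = m - T m` with `S f = -f` and `g` a function
on the cusps, `ω(f, g - S g) = 0`. -/
theorem omega_Bd_right (hs : ∀ x, s (s x) = x) (ht : ∀ x, t (t (t x)) = x) (m g : P → R)
    (hf : ∀ x, (m - pre t m) (s x) = - (m - pre t m) x) (hg : ∀ x, g (s x) = g (t x)) :
    omegaM t m g = 0 := by
  rw [omegaM_eq ht]
  set f := m - pre t m with hfdef
  -- A + B + C = 0 with A = ⟨f, g⟩, B = ⟨f, T g⟩ = -A, C = ⟨f, T⁻¹ g⟩
  have hN : f ⬝ᵥ g + f ⬝ᵥ pre t g + f ⬝ᵥ pre t.symm g = 0 := by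
    rw [hfdef, sub_dotProduct, sub_dotProduct, sub_dotProduct, dot_pre_left t m g,
      dot_pre_left t m (pre t g), dot_pre_left t m (pre t.symm g)]
    have e1 : pre t.symm (pre t g) = g := by ext x; simp
    have e2 : pre t.symm (pre t.symm g) = pre t g := by
      ext x
      simp only [pre_apply]
      rw [symm_apply_of_cube ht, symm_apply_of_cube ht, ht]
    rw [e1, e2]
    ring
  have hB : f ⬝ᵥ pre t g = - (f ⬝ᵥ g) := by
    have e : pre t g = pre s g := by ext x; exact (hg x).symm
    rw [e, dot_pre_right, symm_eq_of_sq hs]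
    have e' : pre s f = - f := by ext x; exact hf x
    rw [e', neg_dotProduct]
  rw [hB] at hN
  linear_combination hN

end Ring2

section Field

variable {k : Type*} [Field k] {s t : Equiv.Perm P}

/-- the dot product as a bilinear form -/
noncomputable def dotB : LinearMap.BilinForm k (P → k) := Matrix.toBilin' (1 : Matrix P P k)

theorem dotB_apply (v w : P → k) : dotB v w = v ⬝ᵥ w := by
  unfold dotB
  rw [Matrix.toBilin'_apply', Matrix.one_mulVec]

theorem dotB_nondegenerate : (dotB : LinearMap.BilinForm k (P → k)).Nondegenerate := by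
  unfold dotB
  rw [Matrix.nondegenerate_toBilin'_iff]
  exact Matrix.nondegenerate_of_det_ne_zero (by simp)

theorem dotB_isRefl : (dotB : LinearMap.BilinForm k (P → k)).IsRefl := by
  intro v w h
  rw [dotB_apply] at h ⊢
  rw [dotProduct_comm]; exact h

theorem mem_orthogonal_dotB {W : Submodule k (P → k)} {v : P → k} :
    v ∈ (dotB : LinearMap.BilinForm k (P → k)).orthogonal W ↔ ∀ w ∈ W, w ⬝ᵥ v = 0 := by
  rw [LinearMap.BilinForm.mem_orthogonal_iff]
  constructor
  · intro h w hw
    have := h w hw
    rwa [dotB_apply] at this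
  · intro h w hw
    rw [dotB_apply]
    exact h w hw

/-- **double orthogonal** for the dot product. -/
theorem mem_of_forall_dot (W : Submodule k (P → k)) (v : P → k)
    (h : ∀ f : P → k, (∀ w ∈ W, w ⬝ᵥ f = 0) → f ⬝ᵥ v = 0) : v ∈ W := by
  rw [← LinearMap.BilinForm.orthogonal_orthogonal dotB_nondegenerate dotB_isRefl W,
    mem_orthogonal_dotB]
  intro f hf
  exact h f (mem_orthogonal_dotB.1 hf)

/-- the range of `1 - T` is the orthogonal of the `T`-invariants. -/
theorem mem_range_of_forall_dot (f : P → k)
    (h : ∀ b : P → k, (∀ x, b (t x) = b x) → b ⬝ᵥ f = 0) :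
    ∃ m : P → k, ∀ x, f x = m x - m (t x) := by
  have hmem : f ∈ LinearMap.range (LinearMap.id - pre (R := k) t) := by
    apply mem_of_forall_dot
    intro y hy
    -- `y` is `T`-invariant
    have hyT : ∀ x, y (t x) = y x := by
      have h0 : y - pre t.symm y = 0 := by
        apply eq_zero_of_forall_dot
        intro m
        have := hy (m - pre t m) ⟨m, by simp⟩
        rw [sub_dotProduct, dot_pre_left] at this
        rw [dotProduct_sub]
        exact this
      intro x
      have := congrFun h0 (t x)
      simp only [Pi.sub_apply, pre_apply, Equiv.symm_apply_apply, Pi.zero_apply] at this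
      exact sub_eq_zero.1 this
    exact h y hyT
  obtain ⟨m, hm⟩ := hmem
  refine ⟨m, fun x => ?_⟩
  have := congrFun hm x
  simp only [LinearMap.sub_apply, LinearMap.id_apply, Pi.sub_apply, pre_apply] at this
  exact this.symm

/-- **POINCARÉ DUALITY (non-degeneracy), every characteristic `≠ 2`**: a surface cocycle
`f' = m' - T m'` which is `ω`-orthogonal to all surface cocycles is a coboundary. -/
theorem mem_Bd_of_forall_omega_eq_zero (h2 : (2 : k) ≠ 0) (hs : ∀ x, s (s x) = x)
    (ht : ∀ x, t (t (t x)) = x) (m' : P → k)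
    (hS : ∀ x, (m' - pre t m') (s x) = - (m' - pre t m') x)
    (h : ∀ m : P → k, (∀ x, (m - pre t m) (s x) = - (m - pre t m) x) → omegaM t m m' = 0) :
    m' - pre t m' ∈ Bd (R := k) s t := by
  -- step 1: `T⁻¹ m' ∈ V^S + V^T`
  have hmem : pre t.symm m' ∈
      LinearMap.ker (pre (R := k) s - LinearMap.id) ⊔ LinearMap.ker (pre (R := k) t - LinearMap.id) := by
    apply mem_of_forall_dot
    intro f hf
    -- `f` is a surface cocycle
    have hfS : ∀ x, f (s x) = - f x := by
      have h0 : f + pre s f = 0 := by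
        apply eq_zero_of_forall_dot
        intro w
        have hw : w + pre s w ∈ LinearMap.ker (pre (R := k) s - LinearMap.id) := by
          rw [LinearMap.mem_ker]
          ext x
          simp only [LinearMap.sub_apply, LinearMap.id_apply, Pi.sub_apply, pre_apply, Pi.add_apply,
            Pi.zero_apply, map_add]
          rw [hs]; ring
        have := hf _ (Submodule.mem_sup_left hw)
        rw [add_dotProduct, dot_pre_left, symm_eq_of_sq hs] at this
        rw [dotProduct_add]
        exact this
      intro x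
      have := congrFun h0 x
      simp only [Pi.add_apply, pre_apply, Pi.zero_apply] at this
      exact eq_neg_of_add_eq_zero_right this
    obtain ⟨m, hm⟩ := mem_range_of_forall_dot (t := t) f (fun b hb => by
      apply hf _ (Submodule.mem_sup_right _)
      rw [LinearMap.mem_ker]
      ext x
      simp only [LinearMap.sub_apply, LinearMap.id_apply, Pi.sub_apply, pre_apply, Pi.zero_apply]
      exact sub_eq_zero.2 (hb x))
    have hfm : f = m - pre t m := by ext x; exact hm x
    have := h m (by rw [← hfm]; exact hfS)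
    rw [omegaM_eq ht, ← hfm] at this
    exact this
  obtain ⟨a, ha, b, hb, hab⟩ := Submodule.mem_sup.1 hmem
  have haS : ∀ x, a (s x) = a x := by
    intro x
    have := congrFun (LinearMap.mem_ker.1 ha) x
    simp only [LinearMap.sub_apply, LinearMap.id_apply, Pi.sub_apply, pre_apply,
      Pi.zero_apply] at this
    exact sub_eq_zero.1 this
  have hbT : ∀ x, b (t x) = b x := by
    intro x
    have := congrFun (LinearMap.mem_ker.1 hb) x
    simp only [LinearMap.sub_apply, LinearMap.id_apply, Pi.sub_apply, pre_apply,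
      Pi.zero_apply] at this
    exact sub_eq_zero.1 this
  -- `m' x = a (t x) + b x`
  have hm' : ∀ x, m' x = a (t x) + b x := by
    intro x
    have := congrFun hab (t x)
    simp only [Pi.add_apply, pre_apply, Equiv.symm_apply_apply] at this
    rw [← this, hbT]
  -- `f' x = a (t x) - a (t (t x))`
  have hf' : ∀ x, (m' - pre t m') x = a (t x) - a (t (t x)) := by
    intro x
    simp only [Pi.sub_apply, pre_apply]
    rw [hm' x, hm' (t x), hbT]; ring
  -- `g := f' - a`
  refine mem_Bd.2 ⟨fun x => ((m' - pre t m') x - a x) / 2, fun x => ?_, fun x => ?_⟩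
  · -- `S g = T g`
    show ((m' - pre t m') (s x) - a (s x)) / 2 = ((m' - pre t m') (t x) - a (t x)) / 2
    rw [hS x, haS x, hf' x, hf' (t x), ht]
    ring
  · show (m' - pre t m') x = ((m' - pre t m') x - a x) / 2 - ((m' - pre t m') (s x) - a (s x)) / 2
    rw [hS x, haS x]
    field_simp
    ring

end Field

end Fermat.Agent.S41.PDAlg87
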